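import Mathlib

set_option autoImplicit false

open scoped TensorProduct

namespace Fermat.Agent.S28_helper54

section MapHom

variable {κ K : Type*} [Field κ] [Field K] [Algebra κ K]

/-- Coefficientwise base change of Laurent series along a field extension. -/
noncomputable def laurentMap (κ K : Type*) [Field κ] [Field K] [Algebra κ K] :
    LaurentSeries κ →+* LaurentSeries K where
  toFun x := x.map (algebraMap κ K)
  map_one' := HahnSeries.map_one (algebraMap κ K).toMonoidWithZeroHom
  map_mul' _ _ := HahnSeries.map_mul ((algebraMap κ K : κ →+* K) : κ →ₙ+* K)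
  map_zero' := HahnSeries.map_zero ((algebraMap κ K : κ →+* K) : ZeroHom κ K)
  map_add' _ _ := HahnSeries.map_add ((algebraMap κ K : κ →+* K) : κ →+ K)

@[simp] theorem laurentMap_coeff (x : LaurentSeries κ) (n : ℤ) :
    (laurentMap κ K x).coeff n = algebraMap κ K (x.coeff n) := rfl

theorem laurentMap_C (c : κ) :
    laurentMap κ K (HahnSeries.C c) = HahnSeries.C (algebraMap κ K c) := by
  ext n
  rw [laurentMap_coeff, HahnSeries.C_apply, HahnSeries.C_apply]
  by_cases hn : n = 0
  · subst hn; simp
  · rw [HahnSeries.coeff_single_of_ne hn, HahnSeries.coeff_single_of_ne hn, map_zero]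

end MapHom

variable {R A κ K : Type*} [CommRing R] [CommRing A] [Algebra R A] [Field κ] [Algebra R κ]
  [Field K] [Algebra R K] [Algebra κ K] [IsScalarTower R κ K]

/-- The comparison map from the tensor product to Laurent series over the big field. -/
noncomputable def tensorToLaurent (ρ : A →+* LaurentSeries κ)
    (hρ : ∀ r : R, ρ (algebraMap R A r) = HahnSeries.C (algebraMap R κ r)) :
    A ⊗[R] K →+* LaurentSeries K :=
  letI : Algebra R (LaurentSeries K) := (HahnSeries.C.comp (algebraMap R K)).toAlgebra
  (Algebra.TensorProduct.productMap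
    ({ toRingHom := (laurentMap κ K).comp ρ
       commutes' := fun r => by
        show laurentMap κ K (ρ (algebraMap R A r)) = HahnSeries.C (algebraMap R K r)
        rw [hρ, laurentMap_C, ← IsScalarTower.algebraMap_apply] } : A →ₐ[R] LaurentSeries K)
    ({ toRingHom := HahnSeries.C
       commutes' := fun r => rfl } : K →ₐ[R] LaurentSeries K)).toRingHom

theorem tensorToLaurent_tmul (ρ : A →+* LaurentSeries κ)
    (hρ : ∀ r : R, ρ (algebraMap R A r) = HahnSeries.C (algebraMap R κ r)) (a : A) (k : K) :
    tensorToLaurent ρ hρ (a ⊗ₜ[R] k) = laurentMap κ K (ρ a) * HahnSeries.C k := by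
  let _ : Algebra R (LaurentSeries K) := (HahnSeries.C.comp (algebraMap R K)).toAlgebra
  exact Algebra.TensorProduct.productMap_apply_tmul _ _ a k

/-- Every element of `A ⊗[R] K` is a finite sum `∑ aᵢ ⊗ bᵢ` over a `κ`-basis `b` of `K`,
provided `R → κ` is surjective. -/
theorem exists_finsupp_sum_tmul (hsurj : Function.Surjective (algebraMap R κ))
    {ι : Type*} (b : Module.Basis ι κ K) (x : A ⊗[R] K) :
    ∃ c : ι →₀ A, x = c.sum fun i a => a ⊗ₜ[R] b i := by
  classical
  induction x using TensorProduct.induction_on with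
  | zero => exact ⟨0, by simp⟩
  | tmul a k =>
    refine ⟨∑ i ∈ (b.repr k).support,
      Finsupp.single i ((Function.surjInv hsurj (b.repr k i)) • a), ?_⟩
    have hsum : ∀ (s : Finset ι) (f : ι → A),
        (∑ i ∈ s, Finsupp.single i (f i)).sum (fun i a => a ⊗ₜ[R] b i) =
          ∑ i ∈ s, f i ⊗ₜ[R] b i := by
      intro s f
      induction s using Finset.induction_on with
      | empty => simp
      | insert j s hj ih =>
        rw [Finset.sum_insert hj, Finset.sum_insert hj,
          Finsupp.sum_add_index' (by simp) (by intro i a a'; rw [TensorProduct.add_tmul]), ih,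
          Finsupp.sum_single_index (by simp)]
    rw [hsum]
    have hk : k = ∑ i ∈ (b.repr k).support, (b.repr k i) • b i := by
      conv_lhs => rw [← b.linearCombination_repr k, Finsupp.linearCombination_apply,
        Finsupp.sum]
    conv_lhs => rw [hk, TensorProduct.tmul_sum]
    refine Finset.sum_congr rfl fun i _ => ?_
    rw [TensorProduct.smul_tmul]
    congr 1
    rw [← algebraMap_smul κ (Function.surjInv hsurj (b.repr k i)) (b i),
      Function.surjInv_eq hsurj]
  | add x y hx hy =>
    obtain ⟨c, rfl⟩ := hx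
    obtain ⟨d, rfl⟩ := hy
    refine ⟨c + d, ?_⟩
    rw [Finsupp.sum_add_index' (by simp) (by intro i a a'; rw [TensorProduct.add_tmul])]

theorem tmul_eq_zero_of_mem_map_ker {a : A}
    (ha : a ∈ Ideal.map (algebraMap R A) (RingHom.ker (algebraMap R κ))) (k : K) :
    a ⊗ₜ[R] k = 0 := by
  refine Submodule.span_induction ?_ ?_ ?_ ?_ ha
  · rintro _ ⟨r, hr, rfl⟩
    have hr0 : algebraMap R K r = 0 := by
      rw [IsScalarTower.algebraMap_apply R κ K, (RingHom.mem_ker).mp hr, map_zero]
    rw [Algebra.algebraMap_eq_smul_one, TensorProduct.smul_tmul, Algebra.smul_def, hr0, zero_mul,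
      TensorProduct.tmul_zero]
  · rw [TensorProduct.zero_tmul]
  · intro x y _ _ hx hy
    rw [TensorProduct.add_tmul, hx, hy, add_zero]
  · intro c x _ hx
    have : (c • x) ⊗ₜ[R] k = (c ⊗ₜ[R] (1 : K)) * (x ⊗ₜ[R] k) := by
      rw [Algebra.TensorProduct.tmul_mul_tmul, one_mul, smul_eq_mul]
    rw [this, hx, mul_zero]

theorem tensorToLaurent_injective (hsurj : Function.Surjective (algebraMap R κ))
    (ρ : A →+* LaurentSeries κ)
    (hρ : ∀ r : R, ρ (algebraMap R A r) = HahnSeries.C (algebraMap R κ r))
    (hker : ∀ a : A, ρ a = 0 → a ∈ Ideal.map (algebraMap R A) (RingHom.ker (algebraMap R κ))) :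
    Function.Injective (tensorToLaurent (K := K) ρ hρ) := by
  classical
  rw [injective_iff_map_eq_zero]
  intro x hx
  let b := Module.Free.chooseBasis κ K
  obtain ⟨c, rfl⟩ := exists_finsupp_sum_tmul (A := A) hsurj b x
  rw [Finsupp.sum, map_sum] at hx
  simp only [tensorToLaurent_tmul] at hx
  have hcoeff : ∀ n : ℤ, ∑ i ∈ c.support, ((ρ (c i)).coeff n) • b i = 0 := by
    intro n
    have h1 := congrArg (fun y : LaurentSeries K => y.coeff n) hx
    simp only [HahnSeries.coeff_sum, HahnSeries.coeff_zero] at h1
    rw [← h1]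
    refine Finset.sum_congr rfl fun i _ => ?_
    rw [HahnSeries.C_apply, HahnSeries.coeff_mul_single_zero, laurentMap_coeff, Algebra.smul_def]
  have hzero : ∀ i ∈ c.support, ρ (c i) = 0 := by
    intro i hi
    ext n
    have := (linearIndependent_iff'.mp b.linearIndependent) c.support
      (fun i => (ρ (c i)).coeff n) (hcoeff n) i hi
    simpa using this
  rw [Finsupp.sum]
  refine Finset.sum_eq_zero fun i hi => ?_
  exact tmul_eq_zero_of_mem_map_ker (hker _ (hzero i hi)) (b i)

/-- **Module T.** If `A/𝔪A` embeds in Laurent series over `κ = R/𝔪` then `A ⊗[R] K` is a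
domain for every field extension `K` of `κ`. -/
theorem isDomain_tensorProduct (hsurj : Function.Surjective (algebraMap R κ))
    (ρ : A →+* LaurentSeries κ)
    (hρ : ∀ r : R, ρ (algebraMap R A r) = HahnSeries.C (algebraMap R κ r))
    (hker : ∀ a : A, ρ a = 0 → a ∈ Ideal.map (algebraMap R A) (RingHom.ker (algebraMap R κ))) :
    IsDomain (A ⊗[R] K) :=
  (tensorToLaurent_injective (K := K) hsurj ρ hρ hker).isDomain _

end Fermat.Agent.S28_helper54
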